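/-
T1B / GLOBAL44 / G3 = LIFT0 (helper7), the Deligne–Serre part.

`A = heckeAlgebra N 2 S` (any `S`).  For every proper ideal `K` of `A` there are a NORMALISED eigenform
`g ∈ S₂(Γ₀(N))` (eigen for ALL `T_ℓ`, `ℓ ∤ N`, and `U_q`, `q ∣ N`, in the Prelude sense
`CuspForm.IsNormalizedEigenform`), a ring homomorphism `χ : A →+* integralClosure ℤ ℂ` with
`t g = χ(t) g` for all `t ∈ A`, and a maximal ideal `𝔪'` of the algebraic integers with `χ(K) ⊆ 𝔪'`.

Inputs: `S49.exists_eigenvector_lift` (abstract Deligne–Serre), `S22.result` (`A` finite over `ℤ`),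
`S21.Assembly.finite_cusp`, `ES/LR/EigenformOfCommon23` (normalised eigenform in a Hecke-stable subspace,
read-off of eigenvalues).
-/
import Mathlib
import Fermat.Prelude.Def_CuspForm_HeckeAlgebra
import Fermat.Agent.S49.CommAlg
import Fermat.Agent.S22
import Fermat.Agent.S21.Assembly
import Fermat.Agent.ES.LR.EigenformOfCommon23

set_option autoImplicit false
set_option linter.unusedSectionVars false

open CuspForm CongruenceSubgroup ModularFormClass

noncomputable section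

namespace Fermat.Agent.T1B.Lift7

variable {N : ℕ} [NeZero N] {S : Set ℕ}

/-- every element of `heckeAlgebra N 2 S` commutes with every element of the full algebra. -/
theorem commute_of_mem_heckeAlgebra {t H : Module.End ℂ (CuspForm (Gamma0 N) 2)}
    (ht : t ∈ heckeAlgebra N 2 S) (hH : H ∈ heckeAlgebra N 2 (∅ : Set ℕ)) : Commute H t := by
  have ht' : t ∈ heckeAlgebra N 2 (∅ : Set ℕ) := heckeAlgebra_mono (Set.empty_subset S) ht
  have h := mul_comm (⟨H, hH⟩ : heckeAlgebra N 2 (∅ : Set ℕ)) ⟨t, ht'⟩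
  exact congrArg Subtype.val h

/-- the common eigenspace of `A = heckeAlgebra N 2 S` for the character `χ`. -/
def eigenSub (χ : ↥(heckeAlgebra N 2 S) →+* integralClosure ℤ ℂ) :
    Submodule ℂ (CuspForm (Gamma0 N) 2) where
  carrier := {v | ∀ t : ↥(heckeAlgebra N 2 S),
    (t : Module.End ℂ (CuspForm (Gamma0 N) 2)) v = ((χ t : integralClosure ℤ ℂ) : ℂ) • v}
  zero_mem' := fun t => by rw [map_zero, smul_zero]
  add_mem' := by
    intro v w hv hw t
    rw [map_add, hv t, hw t, smul_add]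
  smul_mem' := by
    intro c v hv t
    rw [map_smul, hv t, smul_comm]

theorem mem_eigenSub {χ : ↥(heckeAlgebra N 2 S) →+* integralClosure ℤ ℂ}
    {v : CuspForm (Gamma0 N) 2} : v ∈ eigenSub χ ↔ ∀ t : ↥(heckeAlgebra N 2 S),
      (t : Module.End ℂ (CuspForm (Gamma0 N) 2)) v = ((χ t : integralClosure ℤ ℂ) : ℂ) • v :=
  Iff.rfl

theorem eigenSub_stable (χ : ↥(heckeAlgebra N 2 S) →+* integralClosure ℤ ℂ)
    {H : Module.End ℂ (CuspForm (Gamma0 N) 2)} (hH : H ∈ heckeAlgebra N 2 (∅ : Set ℕ))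
    {v : CuspForm (Gamma0 N) 2} (hv : v ∈ eigenSub χ) : H v ∈ eigenSub χ := by
  intro t
  have hc : H * (t : Module.End ℂ (CuspForm (Gamma0 N) 2)) =
      (t : Module.End ℂ (CuspForm (Gamma0 N) 2)) * H := commute_of_mem_heckeAlgebra t.2 hH
  have : (t : Module.End ℂ (CuspForm (Gamma0 N) 2)) (H v) =
      H ((t : Module.End ℂ (CuspForm (Gamma0 N) 2)) v) := by
    rw [← Module.End.mul_apply, ← hc, Module.End.mul_apply]
  rw [this, hv t, map_smul]

/-- **Deligne–Serre for a proper ideal of the Hecke algebra, with a normalised eigenform.** -/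
theorem exists_eigenform_of_ideal (K : Ideal ↥(heckeAlgebra N 2 S)) (hK : K ≠ ⊤) :
    ∃ (g : CuspForm (Gamma0 N) 2) (χ : ↥(heckeAlgebra N 2 S) →+* integralClosure ℤ ℂ)
      (𝔪' : Ideal (integralClosure ℤ ℂ)),
      g.IsNormalizedEigenform ∧ 𝔪'.IsMaximal ∧ K ≤ 𝔪'.comap χ ∧
        ∀ t : ↥(heckeAlgebra N 2 S),
          (t : Module.End ℂ (CuspForm (Gamma0 N) 2)) g = ((χ t : integralClosure ℤ ℂ) : ℂ) • g := by
  have : Module.Finite ℤ ↥(heckeAlgebra N 2 S) := Fermat.Agent.S22.result N 2 S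
  have : Module.Finite ℂ (CuspForm (Gamma0 N) 2) := Fermat.Agent.S21.Assembly.finite_cusp N
  obtain ⟨𝔫, h𝔫max, hK𝔫⟩ := Ideal.exists_le_maximal K hK
  have : 𝔫.IsPrime := h𝔫max.isPrime
  obtain ⟨w, χ, 𝔪', hw0, hw, h𝔪', hle⟩ :=
    Fermat.Agent.S49.exists_eigenvector_lift
      ((heckeAlgebra N 2 S).val.toRingHom) Subtype.val_injective 𝔫
  have hwmem : w ∈ eigenSub χ := fun t => hw t
  have hV : eigenSub χ ≠ ⊥ := by
    intro hbot
    rw [hbot, Submodule.mem_bot] at hwmem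
    exact hw0 hwmem
  obtain ⟨g, hgV, hg⟩ :=
    Fermat.Agent.ES.LR.EigenformOfCommon23.exists_normalizedEigenform_mem (eigenSub χ) hV
      (fun ℓ hℓ hℓN v hv => eigenSub_stable χ
        (heckeTLin_mem_heckeAlgebra hℓ hℓN (Set.notMem_empty ℓ)) hv)
      (fun ℓ hℓ hℓN v hv => eigenSub_stable χ
        (heckeULin_mem_heckeAlgebra hℓ hℓN (Set.notMem_empty ℓ)) hv)
  exact ⟨g, χ, 𝔪', hg, h𝔪', hK𝔫.trans hle, fun t => hgV t⟩

end Fermat.Agent.T1B.Lift7
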