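/-
T1B / GLOBAL44 / G3 = LIFT0 (helper7): INTERFACE.

`LIFT0 U` (`Top68/Global.lean`) is proved in `Lift7/Main.lean` from ONE input, to be supplied by the owner of
G-BLR Stage 2 (helper83), for the SAME family `U` of `U_2`-operators as in `EMBED44 U`, `LOCAL44 U Sp`:

* `FullTateAction U` : for every level `N` with `2 ∣ N` and every prime `p ∤ N` there are a set `S` of
  excluded primes with `2 ∉ S` and `ℓ ∉ S` for every prime `ℓ ∤ N`, `ℓ ≠ p` (e.g. `S = {p}`), and a RING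
  HOMOMORPHISM

      `ev : heckeAlgebra N 2 S →+* End_{ℤ_p}(T_p J₀(N))`,     `T_p J₀(N) = TateModule p (JZero N)`,

  with `ev T_ℓ = T_p(heckeOperatorBar N ℓ)` (`= TateJZero13.tT p N ℓ`, by `rfl`) for the primes `ℓ ∤ N`,
  `ℓ ∉ S`, and `ev U_2 = T_p(U N)`.  NOTHING ELSE is used: no faithfulness, no Galois action, no
  `ℤ_p ⊗`-structure (if you have `evFull : ℤ_[p] ⊗[ℤ] heckeAlgebra N 2 S →ₐ[ℤ_[p]] End(TJ)`, take
  `ev := evFull.toRingHom.comp Algebra.TensorProduct.includeRight.toRingHom`).  In words: "the relations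
  among the `T_ℓ`, `U_2` on `S₂(Γ₀(N))` persist on `T_p J₀(N)`".

The second input, divisibility of `JZero N`, is landed (`MW/Div73.jzero_divisible`) and is plugged in
`Lift7/Final.lean`; `Main.lean` takes it as the hypothesis `JDivisible`.
-/
import Mathlib
import Fermat.Prelude.Def_CuspForm_HeckeAlgebra
import Fermat.Prelude.Def_ModularCurve_HeckeModule
import Fermat.Agent.ES.J.TateModule13
import Fermat.Agent.T1B.Top68.Global

set_option autoImplicit false

open CuspForm CongruenceSubgroup ModularCurve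

noncomputable section

namespace Fermat.Agent.T1B.Lift7

open Fermat.Agent.ES.J.TateModule13 Fermat.Agent.T1B.Top68

/-- **Input of LIFT0 from G-BLR Stage 2**: the Hecke algebra of level `N` on forms, INCLUDING `U_2`,
acts on `T_p J₀(N)` through the geometric Hecke operators. -/
def FullTateAction (U : UFamily) : Prop :=
  ∀ (N p : ℕ) [NeZero N] [Fact p.Prime], ¬ p ∣ N → 2 ∣ N →
    ∃ (S : Set ℕ) (ev : ↥(heckeAlgebra N 2 S) →+* Module.End ℤ_[p] (TateModule p (JZero N))),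
      2 ∉ S ∧ (∀ ℓ : ℕ, ℓ.Prime → ¬ ℓ ∣ N → ℓ ≠ p → ℓ ∉ S) ∧
      (∀ (ℓ : ℕ) (hℓ : ℓ.Prime) (hℓN : ¬ ℓ ∣ N) (hℓS : ℓ ∉ S),
        ev (heckeAlgebra.T hℓ hℓN hℓS) = map (heckeOperatorBar N ⟨ℓ, hℓ⟩).toAddMonoidHom) ∧
      (∀ (h2N : 2 ∣ N) (h2S : 2 ∉ S),
        ev (heckeAlgebra.U Nat.prime_two h2N h2S) = map (U N).toAddMonoidHom)

/-- `J₀(N)(ℚ̄)` is divisible (landed: `MW/Div73.jzero_divisible`). -/
def JDivisible : Prop :=
  ∀ (N : ℕ) [NeZero N] (n : ℕ), n ≠ 0 → ∀ x : JZero N, ∃ y : JZero N, n • y = x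

end Fermat.Agent.T1B.Lift7
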