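/-
T1B / GLOBAL44 (helper7): **`EigenOcc` from a proper ideal of the Hecke algebra** — the reusable core of
LIFT0 (`Lift7/Main.lean`), exported for LIFTC (G4).

If a PROPER ideal `K` of `heckeAlgebra L₀ 2 S` (`2 ∉ S`, the good primes `∉ S`) contains `p`, the
`T_ℓ - a_ℓ` (good `ℓ`) and the `c(U_2)` (`c ∈ C`), then `EigenOcc L₀ p good a C`.

Typical use: the Hecke algebra acts (through a ring homomorphism into the endomorphisms of SOME abelian
group or vector space `M`: `J₀(L₀)[p]`, mod-`p` cusp forms, holomorphic differentials of the special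
fibre, ...) and `K` is the annihilator of a nonzero element `h` with `p h = 0`, `T_ℓ h = a_ℓ h`,
`c(U_2) h = 0`; see `eigenOcc_of_action`.
-/
import Mathlib
import Fermat.Agent.T1B.Lift7.EigenOfIdeal
import Fermat.Agent.T1B.Top68.Global

set_option autoImplicit false

open CuspForm CongruenceSubgroup ModularCurve ModularFormClass

noncomputable section

namespace Fermat.Agent.T1B.Lift7

open Fermat.Agent.T1B.Top68

variable {L₀ : ℕ} [NeZero L₀] {S : Set ℕ}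

/-- **`EigenOcc` from a proper ideal of the Hecke algebra.** -/
theorem eigenOcc_of_ideal (p : ℕ) (h2L : 2 ∣ L₀) (h2S : 2 ∉ S) (good : ℕ → Prop) (a : ℕ → ℤ)
    (C : Set (Polynomial ℤ)) (hgood : ∀ ℓ, good ℓ → ℓ.Prime ∧ ¬ ℓ ∣ L₀ ∧ ℓ ∉ S)
    (K : Ideal ↥(heckeAlgebra L₀ 2 S)) (hK : K ≠ ⊤)
    (hp : (p : ↥(heckeAlgebra L₀ 2 S)) ∈ K)
    (hT : ∀ (ℓ : ℕ) (hℓ : ℓ.Prime) (hℓL : ¬ ℓ ∣ L₀) (hℓS : ℓ ∉ S), good ℓ →
      heckeAlgebra.T hℓ hℓL hℓS - ((a ℓ : ℤ) : ↥(heckeAlgebra L₀ 2 S)) ∈ K)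
    (hC : ∀ c ∈ C, Polynomial.aeval (heckeAlgebra.U Nat.prime_two h2L h2S :
      ↥(heckeAlgebra L₀ 2 S)) c ∈ K) :
    EigenOcc L₀ p good a C := by
  obtain ⟨g, χ, 𝔪', hg, h𝔪', hle, hχ⟩ := exists_eigenform_of_ideal K hK
  refine ⟨g, 𝔪', χ (heckeAlgebra.U Nat.prime_two h2L h2S), hg, h𝔪', ?_, ?_, ?_, ?_⟩
  · have h := hle hp
    rwa [Ideal.mem_comap, map_natCast] at h
  · intro ℓ hℓgood
    obtain ⟨hℓ, hℓL, hℓS⟩ := hgood ℓ hℓgood
    refine ⟨χ (heckeAlgebra.T hℓ hℓL hℓS), ?_, ?_⟩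
    · exact (Fermat.Agent.ES.LR.EigenformOfCommon23.qCoeff_eq_of_heckeTLin_eq_smul hg hℓ hℓL
        (hχ (heckeAlgebra.T hℓ hℓL hℓS))).symm
    · have h := hle (hT ℓ hℓ hℓL hℓS hℓgood)
      rwa [Ideal.mem_comap, map_sub, map_intCast] at h
  · exact (Fermat.Agent.ES.LR.EigenformOfCommon23.qCoeff_eq_of_heckeULin_eq_smul hg Nat.prime_two h2L
      (hχ (heckeAlgebra.U Nat.prime_two h2L h2S))).symm
  · intro c hc
    have h := hle (hC c hc)
    rw [Ideal.mem_comap] at h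
    have h2 : Polynomial.aeval (χ (heckeAlgebra.U Nat.prime_two h2L h2S)) c =
        χ (Polynomial.aeval (heckeAlgebra.U Nat.prime_two h2L h2S : ↥(heckeAlgebra L₀ 2 S)) c) :=
      Polynomial.aeval_algHom_apply χ.toIntAlgHom _ c
    rw [h2]
    exact h

/-- **`EigenOcc` from an action of the Hecke algebra with a nonzero eigen-element.**  `M` any abelian
group, `act` any ring homomorphism from the Hecke algebra to the additive endomorphisms of `M`, `h ≠ 0`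
with `p • h = 0`, `T_ℓ h = a_ℓ • h` (good `ℓ`), `c(U_2) h = 0` (`c ∈ C`). -/
theorem eigenOcc_of_action (p : ℕ) (h2L : 2 ∣ L₀) (h2S : 2 ∉ S) (good : ℕ → Prop) (a : ℕ → ℤ)
    (C : Set (Polynomial ℤ)) (hgood : ∀ ℓ, good ℓ → ℓ.Prime ∧ ¬ ℓ ∣ L₀ ∧ ℓ ∉ S)
    {M : Type*} [AddCommGroup M] (act : ↥(heckeAlgebra L₀ 2 S) →+* Module.End ℤ M)
    (h : M) (h0 : h ≠ 0) (hp : p • h = 0)
    (hT : ∀ (ℓ : ℕ) (hℓ : ℓ.Prime) (hℓL : ¬ ℓ ∣ L₀) (hℓS : ℓ ∉ S), good ℓ →
      act (heckeAlgebra.T hℓ hℓL hℓS) h = a ℓ • h)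
    (hC : ∀ c ∈ C, act (Polynomial.aeval (heckeAlgebra.U Nat.prime_two h2L h2S :
      ↥(heckeAlgebra L₀ 2 S)) c) h = 0) :
    EigenOcc L₀ p good a C := by
  -- the annihilator of `h`
  let K : Ideal ↥(heckeAlgebra L₀ 2 S) :=
    { carrier := {t | act t h = 0}
      zero_mem' := by
        show act 0 h = 0
        rw [map_zero, LinearMap.zero_apply]
      add_mem' := by
        intro s t hs ht
        show act (s + t) h = 0
        rw [map_add, LinearMap.add_apply, hs, ht, add_zero]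
      smul_mem' := by
        intro s t ht
        show act (s • t) h = 0
        rw [smul_eq_mul, map_mul, Module.End.mul_apply, ht, map_zero] }
  have hKmem : ∀ t, t ∈ K ↔ act t h = 0 := fun t => Iff.rfl
  refine eigenOcc_of_ideal p h2L h2S good a C hgood K ?_ ?_ ?_ ?_
  · intro htop
    have h1 : (1 : ↥(heckeAlgebra L₀ 2 S)) ∈ K := by rw [htop]; exact Submodule.mem_top
    rw [hKmem, map_one, Module.End.one_apply] at h1
    exact h0 h1
  · rw [hKmem, map_natCast, Module.End.natCast_apply]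
    exact hp
  · intro ℓ hℓ hℓL hℓS hℓgood
    rw [hKmem, map_sub, LinearMap.sub_apply, hT ℓ hℓ hℓL hℓS hℓgood, map_intCast,
      Module.End.intCast_apply, sub_self]
  · intro c hc
    exact (hKmem _).mpr (hC c hc)

end Fermat.Agent.T1B.Lift7
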