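/-
T1B / GLOBAL44 / G3 = LIFT0 (helper7), abstract Tate-module part.

`J` an abelian group, `T = TateModule p J` (`ES/J/TateModule13`), `A` a commutative ring acting on `T` by a
ring homomorphism `ev : A →+* End_{ℤ_p}(T)`.

* `exists_proj_one_eq` : if `J` is `p`-divisible, every `x ∈ J[p]` is `proj 1 t` for some `t ∈ T`.
* `annIdeal ev t` : the ideal of the `a ∈ A` with `proj 1 (ev a t) = 0`, i.e. the annihilator of the image
  of `t` in `T / pT ⊆ J[p]` (it is an ideal because `ker (proj 1) = pT` is stable under every `ev a`).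
* membership lemmas: `p`, `a - c` when `ev a = map f` and `f x = c • x`, `c(u)` when `ev u = map U` and
  `c(U) x = 0` (`c ∈ ℤ[X]`), where `x = proj 1 t`; and `annIdeal ev t ≠ ⊤` when `x ≠ 0`.
-/
import Mathlib
import Fermat.Agent.ES.J.TateModule13

set_option autoImplicit false
set_option linter.unusedSectionVars false

noncomputable section

namespace Fermat.Agent.T1B.Lift7

open Fermat.Agent.ES.J.TateModule13

variable {p : ℕ} [hp : Fact p.Prime] {J : Type*} [AddCommGroup J]

/-- In a `p`-divisible group every element of `J[p]` lifts to the Tate module. -/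
theorem exists_proj_one_eq (hdiv : ∀ x : J, ∃ y : J, p • y = x) (x : J) (hx : p • x = 0) :
    ∃ t : TateModule p J, proj 1 t = x := by
  classical
  choose d hd using hdiv
  let s : ℕ → J := fun k => Nat.rec 0 (fun n _ => d^[n] x) k
  have hs0 : s 0 = 0 := rfl
  have hs : ∀ n, s (n + 1) = d^[n] x := fun n => rfl
  refine ⟨⟨s, hs0, fun k => ?_⟩, ?_⟩
  · cases k with
    | zero => rw [hs, Function.iterate_zero, id_eq, hs0]; exact hx
    | succ n => rw [hs, hs, Function.iterate_succ_apply', hd]
  · show s 1 = x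
    rw [show (1 : ℕ) = 0 + 1 from rfl, hs, Function.iterate_zero, id_eq]

variable {A : Type*} [CommRing A] (ev : A →+* Module.End ℤ_[p] (TateModule p J))
  (t : TateModule p J)

theorem proj_one_apply_eq_zero (f : Module.End ℤ_[p] (TateModule p J)) {y : TateModule p J}
    (hy : proj 1 y = 0) : proj 1 (f y) = 0 := by
  obtain ⟨z, rfl⟩ := (proj_eq_zero_iff 1 y).mp hy
  rw [map_smul, proj_natCast_smul, pow_smul_proj]

/-- The annihilator in `A` of the image of `t` in `T / pT`. -/
def annIdeal : Ideal A where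
  carrier := {a | proj 1 (ev a t) = 0}
  zero_mem' := by
    show proj 1 (ev 0 t) = 0
    rw [map_zero, LinearMap.zero_apply, map_zero]
  add_mem' := by
    intro a b ha hb
    show proj 1 (ev (a + b) t) = 0
    rw [map_add, LinearMap.add_apply, map_add, ha, hb, add_zero]
  smul_mem' := by
    intro c a ha
    show proj 1 (ev (c • a) t) = 0
    rw [smul_eq_mul, map_mul, Module.End.mul_apply]
    exact proj_one_apply_eq_zero (ev c) ha

theorem mem_annIdeal {a : A} : a ∈ annIdeal ev t ↔ proj 1 (ev a t) = 0 := Iff.rfl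

theorem annIdeal_ne_top (h : proj 1 t ≠ 0) : annIdeal ev t ≠ ⊤ := by
  intro htop
  have h1 : (1 : A) ∈ annIdeal ev t := by rw [htop]; exact Submodule.mem_top
  rw [mem_annIdeal, map_one, Module.End.one_apply] at h1
  exact h h1

theorem ev_intCast_apply (c : ℤ) (y : TateModule p J) : ev (c : A) y = c • y := by
  rw [map_intCast, Module.End.intCast_apply]

theorem natCast_mem_annIdeal (h : p • proj 1 t = 0) : (p : A) ∈ annIdeal ev t := by
  rw [mem_annIdeal]
  have : ev (p : A) t = (p : ℤ) • t := by
    rw [← ev_intCast_apply ev (p : ℤ) t, Int.cast_natCast]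
  rw [this, map_zsmul, natCast_zsmul, h]

/-- `a - c ∈ annIdeal` when `ev a` is induced by `f : J →+ J` and `f x = c • x`. -/
theorem sub_intCast_mem_annIdeal {a : A} {f : J →+ J} (ha : ev a = map f) {c : ℤ}
    (hf : f (proj 1 t) = c • proj 1 t) : a - (c : A) ∈ annIdeal ev t := by
  rw [mem_annIdeal, map_sub, LinearMap.sub_apply, map_sub, ha, proj_map, hf, ev_intCast_apply,
    map_zsmul, sub_self]

/-- the ring homomorphism `End_ℤ(J) → End_{ℤ_p}(T)`. -/
def mapEndInt : Module.End ℤ J →+* Module.End ℤ_[p] (TateModule p J) :=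
  (mapEnd (p := p) (J := J)).comp (addMonoidEndRingEquivInt J).symm.toRingHom

theorem mapEndInt_apply (f : Module.End ℤ J) : mapEndInt (p := p) f = map f.toAddMonoidHom := rfl

theorem proj_mapEndInt (f : Module.End ℤ J) (y : TateModule p J) (k : ℕ) :
    proj k (mapEndInt (p := p) f y) = f (proj k y) := rfl

/-- `c(u) ∈ annIdeal` when `ev u` is induced by `U` and `c(U) x = 0`. -/
theorem aeval_mem_annIdeal {u : A} {U : Module.End ℤ J} (hu : ev u = map U.toAddMonoidHom)
    (c : Polynomial ℤ) (hc : Polynomial.aeval U c (proj 1 t) = 0) :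
    Polynomial.aeval u c ∈ annIdeal ev t := by
  rw [mem_annIdeal]
  have h1 : ev (Polynomial.aeval u c) = Polynomial.aeval (ev u) c :=
    (Polynomial.aeval_algHom_apply ev.toIntAlgHom u c).symm
  have h2 : Polynomial.aeval (mapEndInt (p := p) U) c = mapEndInt (p := p) (Polynomial.aeval U c) :=
    Polynomial.aeval_algHom_apply (mapEndInt (p := p) (J := J)).toIntAlgHom U c
  rw [h1, hu, ← mapEndInt_apply, h2, proj_mapEndInt, hc]

end Fermat.Agent.T1B.Lift7
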