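/-
T1B / GLOBAL44 / G3 = LIFT0 (helper7): **`LIFT0 U` from `FullTateAction U` and divisibility of `J₀(N)(ℚ̄)`.**

Given `0 ≠ x ∈ J₀(L₀)(ℚ̄)[p]` with `T_ℓ x = a_ℓ x` (good `ℓ`) and `c(U_2) x = 0` (`c ∈ C`):
lift `x` to `t ∈ T_p J₀(L₀)` (`proj 1 t = x`, divisibility), let `K = annIdeal ev t ⊂ heckeAlgebra L₀ 2 S` be the
annihilator of `x` (`TateAnn.lean`); it is proper and contains `p`, `T_ℓ - a_ℓ`, `c(U_2)`.  Deligne–Serre
(`EigenOfIdeal.lean`) gives a normalised eigenform `g`, its eigencharacter `χ` and a maximal ideal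
`𝔪' ⊇ χ(K)`; the eigenvalues are the `q`-coefficients (`EigenformOfCommon23`).
-/
import Mathlib
import Fermat.Agent.T1B.Lift7.Iface
import Fermat.Agent.T1B.Lift7.TateAnn
import Fermat.Agent.T1B.Lift7.EigenOfIdeal

set_option autoImplicit false

open CuspForm CongruenceSubgroup ModularCurve ModularFormClass

noncomputable section

namespace Fermat.Agent.T1B.Lift7

open Fermat.Agent.ES.J.TateModule13 Fermat.Agent.T1B.Top68

/-- **LIFT0** from the full Hecke action on the Tate module and divisibility. -/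
theorem lift0_of_fullTateAction (U : UFamily) (hU : FullTateAction U) (hdiv : JDivisible) :
    LIFT0 U := by
  intro L₀ p _ hp hpL h2L good a C hgood hocc
  obtain ⟨x, hx, hx0⟩ := hocc
  obtain ⟨hpx, hTx, hCx⟩ := mem_occSub.mp hx
  have : Fact p.Prime := ⟨hp⟩
  obtain ⟨S, ev, h2S, hS, hevT, hevU⟩ := hU L₀ p hpL h2L
  -- lift `x` to the Tate module
  have hpx' : p • x = 0 := by rw [← natCast_zsmul]; exact hpx
  obtain ⟨t, ht⟩ := exists_proj_one_eq (p := p) (fun y => hdiv L₀ p hp.ne_zero y) x hpx'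
  -- the annihilator ideal
  have hK : annIdeal ev t ≠ ⊤ := annIdeal_ne_top ev t (by rw [ht]; exact hx0)
  obtain ⟨g, χ, 𝔪', hg, h𝔪', hle, hχ⟩ := exists_eigenform_of_ideal (annIdeal ev t) hK
  refine ⟨g, 𝔪', χ (heckeAlgebra.U Nat.prime_two h2L h2S), hg, h𝔪', ?_, ?_, ?_, ?_⟩
  · -- `p ∈ 𝔪'`
    have h := hle (natCast_mem_annIdeal ev t (by rw [ht]; exact hpx'))
    rwa [Ideal.mem_comap, map_natCast] at h
  · -- the congruences at the good primes
    intro ℓ hℓgood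
    obtain ⟨hℓ, hℓL, hℓp⟩ := hgood ℓ hℓgood
    have hℓS : ℓ ∉ S := hS ℓ hℓ hℓL hℓp
    refine ⟨χ (heckeAlgebra.T hℓ hℓL hℓS), ?_, ?_⟩
    · exact (Fermat.Agent.ES.LR.EigenformOfCommon23.qCoeff_eq_of_heckeTLin_eq_smul hg hℓ hℓL
        (hχ (heckeAlgebra.T hℓ hℓL hℓS))).symm
    · have hmem : heckeAlgebra.T hℓ hℓL hℓS - ((a ℓ : ℤ) : ↥(heckeAlgebra L₀ 2 S)) ∈ annIdeal ev t :=
        sub_intCast_mem_annIdeal ev t (hevT ℓ hℓ hℓL hℓS)
          (by rw [ht]; exact hTx ⟨ℓ, hℓ⟩ hℓgood)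
      have h := hle hmem
      rwa [Ideal.mem_comap, map_sub, map_intCast] at h
  · -- `α' = a_2(g)`
    exact (Fermat.Agent.ES.LR.EigenformOfCommon23.qCoeff_eq_of_heckeULin_eq_smul hg Nat.prime_two h2L
      (hχ (heckeAlgebra.U Nat.prime_two h2L h2S))).symm
  · -- `c(α') ∈ 𝔪'`
    intro c hc
    have hmem : Polynomial.aeval (heckeAlgebra.U Nat.prime_two h2L h2S :
        ↥(heckeAlgebra L₀ 2 S)) c ∈ annIdeal ev t :=
      aeval_mem_annIdeal ev t (hevU h2L h2S) c (by rw [ht]; exact hCx c hc)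
    have h := hle hmem
    rw [Ideal.mem_comap] at h
    have h2 : Polynomial.aeval (χ (heckeAlgebra.U Nat.prime_two h2L h2S)) c =
        χ (Polynomial.aeval (heckeAlgebra.U Nat.prime_two h2L h2S : ↥(heckeAlgebra L₀ 2 S)) c) :=
      Polynomial.aeval_algHom_apply χ.toIntAlgHom _ c
    rw [h2]
    exact h

end Fermat.Agent.T1B.Lift7
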