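/-
T1B / GLOBAL44 / G3 = LIFT0 (helper7): `LIFT0 U` from `FullTateAction U` ALONE (divisibility of
`J₀(N)(ℚ̄)` plugged in from `MW/Div73`).
-/
import Mathlib
import Fermat.Agent.T1B.Lift7.Main
import Fermat.Agent.MW.Div73

set_option autoImplicit false

namespace Fermat.Agent.T1B.Lift7

open Fermat.Agent.T1B.Top68

/-- `J₀(N)(ℚ̄)` is divisible. -/
theorem jDivisible : JDivisible :=
  fun N _ n hn x => Fermat.Agent.MW.Div73.jzero_divisible N n hn x

/-- **LIFT0 `U`** from the full Hecke action on the Tate module. -/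
theorem lift0 (U : UFamily) (hU : FullTateAction U) : LIFT0 U :=
  lift0_of_fullTateAction U hU jDivisible

end Fermat.Agent.T1B.Lift7
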