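/-
T1B / GLOBAL44 / G3 = LIFT0 (helper7): **`FullTateAction U` (hence `LIFT0 U`) from the Kummer contract for
`U_2`.**

`KumUq U` : for every level `N` with `2 ∣ N`, every prime `p` and every `k`, the Kummer map
`κ_k : J₀(N)(ℚ̄)[p^k] → X(Γ₀(N))` of `ES/J/KummerSystemFinal18.kummerSystemJ` intertwines `U N` with
`UqX` (`(UqX χ) γ = ∏ j : ZMod 2, χ (UqOp28.cocU γ j)`, helper69's `Lift69/UqTate.lean`).

From it: `ev := x ↦ evB heckeLamFull ι₀ (1 ⊗ x)` (`ES/K/BaseChangeFaith26`, `ES/S16/FaithFull19`,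
`ι₀ = ES/K/HeckeTate26.iotaJ`) is a ring homomorphism `heckeAlgebra N 2 S →+* End(T_p J₀(N))` for EVERY `S`,
with `ev T_ℓ = tT ℓ` (`TateCompare11.map_iota`) and `ev U_2 = T_p(U N)` (`Lift69.UqTate.map_iota_Uq`).
-/
import Mathlib
import Fermat.Agent.ES.K.HeckeTate26
import Fermat.Agent.ES.S16.FaithFull19
import Fermat.Agent.T1B.Lift7.Iface
import Fermat.Agent.T1B.Lift69.UqTate

set_option autoImplicit false
set_option linter.unusedSectionVars false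

noncomputable section

namespace Fermat.Agent.T1B.Lift7

open scoped TensorProduct
open CuspForm ModularCurve CongruenceSubgroup
open Fermat.Agent.ES.J.TateModule13 Fermat.Agent.ES.J.TateChar11 Fermat.Agent.ES.J.TateCompare11
open Fermat.Agent.ES.J.TateJZero13 Fermat.Agent.ES.J.KummerSystemFinal18
open Fermat.Agent.ES.HEQ.FaithInst26 Fermat.Agent.ES.HEQ.FaithFinal26
open Fermat.Agent.ES.HEQ.DoubleCoset27 Fermat.Agent.ES.HEQ.DoubleCosetPar27
open Fermat.Agent.ES.K.BaseChangeFaith26 Fermat.Agent.ES.K.HeckeTate26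
open Fermat.Agent.ES.S16.FaithFull19 Fermat.Agent.ES.LR.UqOp28
open Fermat.Agent.T1B.Top68 Fermat.Agent.T1B.Lift69.UqTate

/-- **The Kummer contract for `U_2`** (to be supplied by KUM-U2): the Kummer maps of `J₀(N)(ℚ̄)`
intertwine `U N` with the operator `U_2` on characters. -/
def KumUq (U : UFamily) : Prop :=
  ∀ (N p : ℕ) [NeZero N] [Fact p.Prime] (h2N : 2 ∣ N) (k : ℕ)
    (x : ↥(tors (JZero N) (p ^ k))) (hfx : U N (x : JZero N) ∈ tors (JZero N) (p ^ k)),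
    (kummerSystemJ p N).κ k ⟨U N (x : JZero N), hfx⟩ =
      UqX (q := 2) h2N ((kummerSystemJ p N).κ k x)

section Ev

variable (p : ℕ) [hp : Fact p.Prime] (N : ℕ) [NeZero N] (S : Set ℕ)

/-- the comparison `ι₀ : Λ → T_p J₀(N)` of the Kummer system (NOT the opaque `HeckeTate26.iotaJ`). -/
def iotaK : ↥(Lam N) →ₗ[ℤ] TJ p N := iota (kummerSystemJ p N)

theorem isBaseChange_iotaK : IsBaseChange ℤ_[p] (iotaK p N) :=
  isBaseChange_iota (kummerSystemJ p N) (Fermat.Agent.ES.HEQ.ParLattice11.fg_Gamma0 N)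

theorem tT_iotaK (ℓ : ℕ) (hℓ : ℓ.Prime) (hℓN : ¬ ℓ ∣ N) (x : ↥(Lam N)) :
    tT p N ⟨ℓ, hℓ⟩ (iotaK p N x) = iotaK p N (dcZ N ℓ hℓ hℓN x) := by
  have : Fact ℓ.Prime := ⟨hℓ⟩
  exact map_iota hℓN (kummerSystemJ p N) (heckeOperatorBar N ⟨ℓ, hℓ⟩).toAddMonoidHom
    (fun k y hfy => heckeCompatJ p N ℓ hℓ hℓN k y hfy) x

/-- the action of the full `p`-adic Hecke algebra (any `S`) on `T_p J₀(N)`. -/
def evFull : Bp p N S →ₐ[ℤ_[p]] Module.End ℤ_[p] (TJ p N) :=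
  evB (heckeLamFull S) (iotaK p N) (isBaseChange_iotaK p N)

/-- the integral part `x ↦ evFull (1 ⊗ x)`: the action of the FULL Hecke algebra (any `S`). -/
def evFullZ : ↥(heckeAlgebra N 2 S) →ₐ[ℤ] Module.End ℤ_[p] (TJ p N) :=
  ((evFull p N S).restrictScalars ℤ).comp Algebra.TensorProduct.includeRight

theorem evFull_one_tmul (x : ↥(heckeAlgebra N 2 S)) :
    evFull p N S (1 ⊗ₜ[ℤ] x) = evFullZ p N S x := rfl

theorem evFull_tmul_apply (a : ℤ_[p]) (x : ↥(heckeAlgebra N 2 S)) (l : ↥(Lam N)) :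
    evFull p N S (a ⊗ₜ[ℤ] x) (iotaK p N l) = a • iotaK p N (heckeLamFull S x l) :=
  evB_tmul_apply _ _ _ a x l

theorem evFullZ_apply_iotaK (x : ↥(heckeAlgebra N 2 S)) (l : ↥(Lam N)) :
    evFullZ p N S x (iotaK p N l) = iotaK p N (heckeLamFull S x l) := by
  have h := evFull_tmul_apply p N S (1 : ℤ_[p]) x l
  rw [one_smul] at h
  exact h

theorem evFullZ_T (ℓ : ℕ) (hℓ : ℓ.Prime) (hℓN : ¬ ℓ ∣ N) (hℓS : ℓ ∉ S) :
    evFullZ p N S (heckeAlgebra.T hℓ hℓN hℓS) = tT p N ⟨ℓ, hℓ⟩ := by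
  have : Fact ℓ.Prime := ⟨hℓ⟩
  refine (isBaseChange_iotaK p N).algHom_ext _ _ fun l => ?_
  rw [evFullZ_apply_iotaK, heckeLamFull_T S ℓ hℓ hℓN hℓS, tT_iotaK, dcZ_eq]

theorem evFullZ_U (h2N : 2 ∣ N) (h2S : 2 ∉ S) (f : JZero N →+ JZero N)
    (hf : ∀ (k : ℕ) (x : ↥(tors (JZero N) (p ^ k)))
      (hfx : f (x : JZero N) ∈ tors (JZero N) (p ^ k)),
      (kummerSystemJ p N).κ k ⟨f (x : JZero N), hfx⟩ =
        UqX (q := 2) h2N ((kummerSystemJ p N).κ k x)) :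
    evFullZ p N S (heckeAlgebra.U Nat.prime_two h2N h2S) = map f := by
  refine (isBaseChange_iotaK p N).algHom_ext _ _ fun l => ?_
  rw [evFullZ_apply_iotaK, heckeLamFull_U S 2 Nat.prime_two h2N h2S]
  exact (map_iota_Uq (q := 2) h2N (kummerSystemJ p N) f hf l).symm

end Ev

/-- **`FullTateAction U` from the Kummer contract for `U_2`** (with `S = ∅`). -/
theorem fullTateAction_of_kumUq (U : UFamily) (hU : KumUq U) : FullTateAction U := by
  intro N p _ _ _ h2N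
  refine ⟨∅, (evFullZ p N ∅).toRingHom, Set.notMem_empty 2, fun ℓ _ _ _ => Set.notMem_empty ℓ,
    fun ℓ hℓ hℓN hℓS => ?_, fun h2N' h2S => ?_⟩
  · exact evFullZ_T p N ∅ ℓ hℓ hℓN hℓS
  · exact evFullZ_U p N ∅ h2N' h2S (U N).toAddMonoidHom (fun k x hfx => hU N p h2N' k x hfx)

end Fermat.Agent.T1B.Lift7
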