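/-
T1B / GLOBAL44 / G3 = LIFT0 (helper7): **`LIFT0 U` UNCONDITIONALLY for the adopted family
`U := Degen21.UFam.uTwo`** (`U_2 = β_* α^* = heckePic0BarTranspose` at even levels).

`lift0_of_kumUq : KumUq U → LIFT0 U` (`OfKummer` + `Final`), and `KumUq uTwo` is helper78's
`KumU78.kumUq_uTwo`.
-/
import Mathlib
import Fermat.Agent.T1B.Lift7.OfKummer
import Fermat.Agent.T1B.Lift7.Final
import Fermat.Agent.T1B.KumU78.KumUq

set_option autoImplicit false

namespace Fermat.Agent.T1B.Lift7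

open Fermat.Agent.T1B.Top68

/-- **LIFT0 from the Kummer contract for `U_2`.** -/
theorem lift0_of_kumUq (U : UFamily) (hU : KumUq U) : LIFT0 U :=
  lift0 U (fullTateAction_of_kumUq U hU)

/-- the Kummer contract for `uTwo` (helper78). -/
theorem kumUq_uTwo : KumUq Fermat.Agent.T1B.Degen21.UFam.uTwo :=
  fun N p _ _ h2N k x hfx => Fermat.Agent.T1B.KumU78.kumUq_uTwo p N h2N k x hfx

/-- **LIFT0 for the adopted `U_2`-family, unconditionally.** -/
theorem lift0_uTwo : LIFT0 Fermat.Agent.T1B.Degen21.UFam.uTwo :=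
  lift0_of_kumUq _ kumUq_uTwo

end Fermat.Agent.T1B.Lift7
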