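/-
T1B / GLOBAL44 / G3 = LIFT0 (helper7): `LIFT0 U` only depends on `U` at EVEN levels; hence LIFT0 for the
other candidate families (`KumU48.heckeUFamily`, `KumU6.heckeUBar · 2`) from `lift0_uTwo` and helper78's
bridges (`KumU78/Bridge.lean`).
-/
import Mathlib
import Fermat.Agent.T1B.Lift7.FinalK
import Fermat.Agent.T1B.KumU78.Bridge

set_option autoImplicit false

open ModularCurve

namespace Fermat.Agent.T1B.Lift7

open Fermat.Agent.T1B.Top68

/-- `LIFT0 U` only depends on the values of the family `U` at even levels. -/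
theorem lift0_congr {U U' : UFamily} (h : ∀ (N : ℕ) [NeZero N], 2 ∣ N → U N = U' N)
    (hU : LIFT0 U) : LIFT0 U' := by
  intro L₀ p _ hp hpL h2L good a C hgood hocc
  refine hU L₀ p hp hpL h2L good a C hgood ?_
  obtain ⟨x, hx, hx0⟩ := hocc
  refine ⟨x, ?_, hx0⟩
  rw [mem_occSub] at hx ⊢
  rw [h L₀ h2L]
  exact hx

/-- **LIFT0 for helper48's family** `KumU48.heckeUFamily`. -/
theorem lift0_heckeUFamily : LIFT0 Fermat.Agent.T1B.KumU48.heckeUFamily :=
  lift0_congr (fun N _ h2 => Fermat.Agent.T1B.KumU78.uTwo_eq_heckeUFamily N h2) lift0_uTwo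

end Fermat.Agent.T1B.Lift7
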