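/-
T1B / GLOBAL44 (helper7): **the FULL `p`-adic Hecke algebra (with `U_2`) acts faithfully on `T_p J₀(N)`,
commuting with Galois** — the "Stage 2 output" asked for by EMBED44 (G-BLR), on top of `Lift7/OfKummer.lean`.

`N` with `2 ∣ N`, `S ∌ 2` a set of primes containing the odd primes of `N`, `f : JZero N →+ JZero N` an
endomorphism (`= U N` for the chosen orientation) which
* corresponds to `UqX` under the Kummer maps of `kummerSystemJ p N` (the contract `KumUq`), and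
* commutes with the Galois action.
Then `evFull p N S : ℤ_[p] ⊗[ℤ] heckeAlgebra N 2 S →ₐ[ℤ_[p]] End_{ℤ_p}(T_p J₀(N))` is injective,
`evFull (1 ⊗ T_ℓ) = tT ℓ`, `evFull (1 ⊗ U_2) = T_p(f)`, and every `evFull b` commutes with `rhoT σ`.
-/
import Mathlib
import Fermat.Agent.T1B.Lift7.OfKummer

set_option autoImplicit false
set_option linter.unusedSectionVars false

noncomputable section

namespace Fermat.Agent.T1B.Lift7

open scoped TensorProduct
open CuspForm ModularCurve CongruenceSubgroup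
open Fermat.Agent.ES.J.TateModule13 Fermat.Agent.ES.J.TateChar11 Fermat.Agent.ES.J.TateCompare11
open Fermat.Agent.ES.J.TateJZero13 Fermat.Agent.ES.J.KummerSystemFinal18
open Fermat.Agent.ES.HEQ.FaithInst26 Fermat.Agent.ES.HEQ.FaithFinal26
open Fermat.Agent.ES.K.BaseChangeFaith26 Fermat.Agent.ES.K.HeckeTate26
open Fermat.Agent.ES.S16.FaithFull19 Fermat.Agent.ES.LR.UqOp28
open Fermat.Agent.T1B.Lift69.UqTate

local notation "Qb" => AlgebraicClosure ℚ

variable (p : ℕ) [hp : Fact p.Prime] (N : ℕ) [NeZero N] (S : Set ℕ)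

/-- **faithfulness.** -/
theorem evFull_injective : Function.Injective (evFull p N S) :=
  haveI : Module.FinitePresentation ℤ ↥(Lam N) := Module.finitePresentation_of_finite ℤ _
  evB_injective _ _ _ (heckeLamFull_injective S)

theorem evFull_tmul (a : ℤ_[p]) (x : ↥(heckeAlgebra N 2 S)) :
    evFull p N S (a ⊗ₜ[ℤ] x) = a • evFull p N S (1 ⊗ₜ[ℤ] x) := by
  rw [← map_smul, TensorProduct.smul_tmul', smul_eq_mul, mul_one]

theorem evFull_T (ℓ : ℕ) (hℓ : ℓ.Prime) (hℓN : ¬ ℓ ∣ N) (hℓS : ℓ ∉ S) :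
    evFull p N S (1 ⊗ₜ[ℤ] heckeAlgebra.T hℓ hℓN hℓS) = tT p N ⟨ℓ, hℓ⟩ := by
  rw [evFull_one_tmul, evFullZ_T]

variable {p N S}

/-- the Kummer contract for an endomorphism `f` of `J₀(N)(ℚ̄)` at the prime `2 ∣ N`. -/
def KumCompat (h2N : 2 ∣ N) (f : JZero N →+ JZero N) : Prop :=
  ∀ (k : ℕ) (x : ↥(tors (JZero N) (p ^ k))) (hfx : f (x : JZero N) ∈ tors (JZero N) (p ^ k)),
    (kummerSystemJ p N).κ k ⟨f (x : JZero N), hfx⟩ =
      UqX (q := 2) h2N ((kummerSystemJ p N).κ k x)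

theorem evFull_U (h2N : 2 ∣ N) (h2S : 2 ∉ S) (f : JZero N →+ JZero N)
    (hf : KumCompat (p := p) h2N f) :
    evFull p N S (1 ⊗ₜ[ℤ] heckeAlgebra.U Nat.prime_two h2N h2S) = map f := by
  rw [evFull_one_tmul]
  exact evFullZ_U p N S h2N h2S f hf

/-- an endomorphism commuting with Galois induces an operator on `T_p` commuting with `rhoT`. -/
theorem commute_rhoT_map (f : JZero N →+ JZero N)
    (hG : ∀ (σ : Qb ≃ₐ[ℚ] Qb) (x : JZero N), f (σ • x) = σ • f x) (σ : Qb ≃ₐ[ℚ] Qb) :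
    Commute (rhoT p N σ) (map f) := by
  refine LinearMap.ext fun x => ?_
  ext k
  show σ • f (proj k x) = f (σ • proj k x)
  exact (hG σ (proj k x)).symm

/-- **the Galois action commutes with the full Hecke algebra** (`S` contains the odd primes of `N`). -/
theorem commute_rhoT_evFullZ (hS : ∀ q : ℕ, q.Prime → q ∣ N → q ≠ 2 → q ∈ S) (h2N : 2 ∣ N)
    (f : JZero N →+ JZero N) (hf : KumCompat (p := p) h2N f)
    (hG : ∀ (σ : Qb ≃ₐ[ℚ] Qb) (x : JZero N), f (σ • x) = σ • f x)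
    (σ : Qb ≃ₐ[ℚ] Qb) (x : ↥(heckeAlgebra N 2 S)) :
    Commute (rhoT p N σ) (evFullZ p N S x) := by
  obtain ⟨x, hx⟩ := x
  induction hx using Algebra.adjoin_induction with
  | mem y hy =>
    rcases hy with ⟨ℓ, hℓ, hℓN, hℓS, rfl⟩ | ⟨q, hqN, hq, hqS, rfl⟩
    · have h1 : (⟨heckeTLin 2 hℓ hℓN, Algebra.subset_adjoin
          (heckeTLin_mem_heckeGenerators hℓ hℓN hℓS)⟩ : ↥(heckeAlgebra N 2 S)) =
          heckeAlgebra.T hℓ hℓN hℓS := rfl
      rw [h1, evFullZ_T]
      exact commute_rhoT_tT σ ⟨ℓ, hℓ⟩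
    · have hq2 : q = 2 := by
        by_contra hne
        exact hqS (hS q hq hqN hne)
      subst hq2
      have h1 : (⟨heckeULin 2 hqN, Algebra.subset_adjoin
          (heckeULin_mem_heckeGenerators hq hqN hqS)⟩ : ↥(heckeAlgebra N 2 S)) =
          heckeAlgebra.U Nat.prime_two hqN hqS := rfl
      rw [h1, evFullZ_U p N S hqN hqS f hf]
      exact commute_rhoT_map f hG σ
  | algebraMap r =>
    have : (⟨algebraMap ℤ _ r, Subalgebra.algebraMap_mem _ r⟩ : ↥(heckeAlgebra N 2 S)) =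
        algebraMap ℤ ↥(heckeAlgebra N 2 S) r := rfl
    rw [this, AlgHom.commutes]
    exact (Algebra.commutes r _).symm
  | add y z hy hz ihy ihz =>
    have : (⟨y + z, Subalgebra.add_mem _ hy hz⟩ : ↥(heckeAlgebra N 2 S)) = ⟨y, hy⟩ + ⟨z, hz⟩ := rfl
    rw [this, map_add]
    exact ihy.add_right ihz
  | mul y z hy hz ihy ihz =>
    have : (⟨y * z, Subalgebra.mul_mem _ hy hz⟩ : ↥(heckeAlgebra N 2 S)) = ⟨y, hy⟩ * ⟨z, hz⟩ := rfl
    rw [this, map_mul]
    exact ihy.mul_right ihz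

theorem commute_rhoT_evFull (hS : ∀ q : ℕ, q.Prime → q ∣ N → q ≠ 2 → q ∈ S) (h2N : 2 ∣ N)
    (f : JZero N →+ JZero N) (hf : KumCompat (p := p) h2N f)
    (hG : ∀ (σ : Qb ≃ₐ[ℚ] Qb) (x : JZero N), f (σ • x) = σ • f x)
    (σ : Qb ≃ₐ[ℚ] Qb) (b : Bp p N S) :
    Commute (rhoT p N σ) (evFull p N S b) := by
  induction b using TensorProduct.induction_on with
  | zero => rw [map_zero]; exact Commute.zero_right _
  | tmul a x =>
    rw [evFull_tmul, evFull_one_tmul]
    exact (commute_rhoT_evFullZ hS h2N f hf hG σ x).smul_right a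
  | add b c hb hc => rw [map_add]; exact hb.add_right hc

end Fermat.Agent.T1B.Lift7
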