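/-
T1B / G3 LIFT0 (helper7, for helper69's `Lift69` chain): `PDivCard.PDiv p x` for EVERY `x : JZero N`,
from the divisibility of `J₀(N)(ℚ̄)` (`MW/Div73.jzero_divisible`, unconditional).
-/
import Mathlib
import Fermat.Agent.T1B.Lift69.PDivCard
import Fermat.Agent.MW.Div73

set_option autoImplicit false

open ModularCurve

namespace Fermat.Agent.T1B.Lift7

open Fermat.Agent.T1B.Lift69.PDivCard

/-- In a `p`-divisible group every element is the start of a `p`-division tower. -/
theorem pdiv_of_divisible {J : Type*} [AddCommGroup J] (p : ℕ) (hdiv : ∀ x : J, ∃ y : J, p • y = x)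
    (x : J) : PDiv p x := by
  choose d hd using hdiv
  refine ⟨fun k => d^[k] x, rfl, fun k => ?_⟩
  show p • d^[k + 1] x = d^[k] x
  rw [Function.iterate_succ_apply', hd]

/-- **Every point of `J₀(N)(ℚ̄)` is `p`-divisible** (in particular the `p`-torsion points). -/
theorem pdiv_JZero (N p : ℕ) [NeZero N] (hp : p.Prime) (x : JZero N) : PDiv p x :=
  pdiv_of_divisible p (fun y => Fermat.Agent.MW.Div73.jzero_divisible N p hp.ne_zero y) x

end Fermat.Agent.T1B.Lift7
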